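import Mathlib

/-!
# S53, block M3 (counting): cardinality bounds for Artinian local rings

* `cb_card_le` (CB1): a local ring with finite residue field of cardinality `q`, whose maximal
  ideal is generated by `e` elements and satisfies `𝔪 ^ (n+1) = ⊥`, is finite of cardinality at
  most `q ^ (∑ i ≤ n, e ^ i)`.
-/

set_option autoImplicit false

open IsLocalRing
open scoped Pointwise

namespace Fermat.Agent.S53

section CB1

variable {A : Type} [CommRing A] [IsLocalRing A]

/-- If `𝔪 = span s` then `𝔪 ^ i` is generated by at most `|s| ^ i` elements. -/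
theorem cb_exists_span_pow (s : Finset A) (hs : maximalIdeal A = Ideal.span (s : Set A))
    (i : ℕ) :
    ∃ Y : Finset A, Y.card ≤ s.card ^ i ∧ maximalIdeal A ^ i = Ideal.span (Y : Set A) := by
  classical
  induction i with
  | zero =>
    refine ⟨{1}, by simp, ?_⟩
    rw [pow_zero, Finset.coe_singleton, Ideal.span_singleton_one, Ideal.one_eq_top]
  | succ i ih =>
    obtain ⟨Y, hY, hspan⟩ := ih
    refine ⟨Y * s, ?_, ?_⟩
    · calc (Y * s).card ≤ Y.card * s.card := Finset.card_mul_le
        _ ≤ s.card ^ i * s.card := Nat.mul_le_mul_right _ hY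
        _ = s.card ^ (i + 1) := (pow_succ _ _).symm
    · rw [pow_succ, hspan, Finset.coe_mul, ← Ideal.span_mul_span', ← hs]

/-- Approximation modulo `𝔪 ^ i` by a finite set of controlled size. -/
theorem cb_exists_approx [Finite (ResidueField A)] (s : Finset A)
    (hs : maximalIdeal A = Ideal.span (s : Set A)) (i : ℕ) :
    ∃ T : Finset A, T.card ≤ Nat.card (ResidueField A) ^ (∑ j ∈ Finset.range i, s.card ^ j) ∧
      ∀ a : A, ∃ τ ∈ T, a - τ ∈ maximalIdeal A ^ i := by
  classical
  induction i with
  | zero =>
    refine ⟨{0}, by simp, fun a => ⟨0, by simp, ?_⟩⟩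
    rw [pow_zero, Ideal.one_eq_top]
    exact Submodule.mem_top
  | succ i ih =>
    obtain ⟨T, hT, hTa⟩ := ih
    obtain ⟨Y, hY, hYspan⟩ := cb_exists_span_pow s hs i
    let t : ResidueField A → A := Function.surjInv (residue_surjective (R := A))
    have ht : ∀ c, residue A (t c) = c := Function.surjInv_eq _
    have : Fintype (ResidueField A) := Fintype.ofFinite _
    let F : (T × (Y → ResidueField A)) → A := fun p => (p.1 : A) + ∑ y : Y, t (p.2 y) * (y : A)
    refine ⟨Finset.univ.image F, ?_, ?_⟩
    · have hq : 0 < Nat.card (ResidueField A) := Nat.card_pos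
      calc (Finset.univ.image F).card ≤ (Finset.univ : Finset (T × (Y → ResidueField A))).card :=
            Finset.card_image_le
        _ = T.card * Nat.card (ResidueField A) ^ Y.card := by
            rw [Finset.card_univ, Fintype.card_prod, Fintype.card_fun, Fintype.card_coe,
              Fintype.card_coe, Nat.card_eq_fintype_card]
        _ ≤ Nat.card (ResidueField A) ^ (∑ j ∈ Finset.range i, s.card ^ j) *
              Nat.card (ResidueField A) ^ (s.card ^ i) :=
            Nat.mul_le_mul hT (Nat.pow_le_pow_right hq hY)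
        _ = Nat.card (ResidueField A) ^ (∑ j ∈ Finset.range (i + 1), s.card ^ j) := by
            rw [Finset.sum_range_succ, pow_add]
    · intro a
      obtain ⟨τ, hτ, haτ⟩ := hTa a
      rw [hYspan] at haτ
      obtain ⟨f, hf⟩ := Submodule.mem_span_finset'.mp haτ
      refine ⟨F (⟨τ, hτ⟩, fun y => residue A (f y)),
        Finset.mem_image_of_mem _ (Finset.mem_univ _), ?_⟩
      have h1 : a - F (⟨τ, hτ⟩, fun y => residue A (f y)) =
          ∑ y : Y, (f y - t (residue A (f y))) * (y : A) := by
        simp only [F, sub_mul, Finset.sum_sub_distrib]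
        have : ∑ y : Y, f y * (y : A) = a - τ := by
          rw [← hf]
          simp [smul_eq_mul]
        rw [this]
        ring
      rw [h1, pow_succ']
      refine Ideal.sum_mem _ fun y _ => Ideal.mul_mem_mul ?_ ?_
      · rw [← residue_eq_zero_iff, map_sub, ht, sub_self]
      · rw [hYspan]
        exact Ideal.subset_span y.2

/-- **CB1**: a local ring with finite residue field whose maximal ideal is generated by `s` and
has vanishing `(n+1)`-st power is finite, of cardinality bounded in terms of `|s|`, `n` and the
cardinality of the residue field. -/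
theorem cb_card_le [Finite (ResidueField A)] (s : Finset A)
    (hs : maximalIdeal A = Ideal.span (s : Set A)) (n : ℕ)
    (hn : maximalIdeal A ^ (n + 1) = ⊥) :
    Finite A ∧
      Nat.card A ≤ Nat.card (ResidueField A) ^ (∑ i ∈ Finset.range (n + 1), s.card ^ i) := by
  classical
  obtain ⟨T, hT, hTa⟩ := cb_exists_approx s hs (n + 1)
  have hmem : ∀ a : A, a ∈ T := by
    intro a
    obtain ⟨τ, hτ, h⟩ := hTa a
    rw [hn, Ideal.mem_bot, sub_eq_zero] at h
    rwa [h]
  let inst : Fintype A := ⟨T, hmem⟩
  refine ⟨Finite.of_fintype A, ?_⟩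
  have hcard : Nat.card A = T.card := by
    rw [Nat.card_eq_fintype_card]
    rfl
  rw [hcard]
  exact hT

/-- Monotone version of `cb_card_le`: a bound `e` on the number of generators suffices. -/
theorem cb_card_le_of_le [Finite (ResidueField A)] (s : Finset A)
    (hs : maximalIdeal A = Ideal.span (s : Set A)) {e : ℕ} (he : s.card ≤ e) (n : ℕ)
    (hn : maximalIdeal A ^ (n + 1) = ⊥) :
    Finite A ∧
      Nat.card A ≤ Nat.card (ResidueField A) ^ (∑ i ∈ Finset.range (n + 1), e ^ i) := by
  obtain ⟨hfin, hle⟩ := cb_card_le s hs n hn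
  refine ⟨hfin, hle.trans (Nat.pow_le_pow_right Nat.card_pos ?_)⟩
  exact Finset.sum_le_sum fun i _ => Nat.pow_le_pow_left he i

end CB1

end Fermat.Agent.S53
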