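import Mathlib
import Fermat.Prelude.Def_GaloisRep_DeformationCondition
import Fermat.Agent.S53.GoodIdeals.CardBound

/-!
# S53, block M3 (counting): homomorphisms to the dual numbers and generators of `𝔪_A`

For a local `𝒪`-algebra `A` with local, residually surjective structure map, every functional on
the cotangent space of `A` vanishing on the image of `𝔪_𝒪` gives an `𝒪`-algebra homomorphism
`A → k[ε]` (`k` the residue field of `𝒪`), and distinct functionals give distinct homomorphisms.
Consequently a bound on the number of such homomorphisms bounds the number of generators of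
`𝔪_A` (CB2), and hence, by CB1, the cardinality of `A` (CB3).
-/

set_option autoImplicit false

open IsLocalRing

namespace Fermat.Agent.S53

noncomputable section CB2

variable {𝒪 A : Type} [CommRing 𝒪] [IsLocalRing 𝒪] [CommRing A] [IsLocalRing A] [Algebra 𝒪 A]
  [IsLocalHom (algebraMap 𝒪 A)]

/-- The identification of residue fields of `𝒪` and a residually surjective `𝒪`-algebra. -/
def cbResidueEquiv (hres : Function.Surjective (residue A ∘ algebraMap 𝒪 A)) :
    ResidueField 𝒪 ≃+* ResidueField A :=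
  RingEquiv.ofBijective (ResidueField.map (algebraMap 𝒪 A))
    ⟨(ResidueField.map (algebraMap 𝒪 A)).injective, fun y => by
      obtain ⟨o, ho⟩ := hres y
      exact ⟨residue 𝒪 o, ho⟩⟩

theorem cbResidueEquiv_residue (hres : Function.Surjective (residue A ∘ algebraMap 𝒪 A)) (o : 𝒪) :
    cbResidueEquiv hres (residue 𝒪 o) = residue A (algebraMap 𝒪 A o) := rfl

theorem cbResidueEquiv_symm_residue (hres : Function.Surjective (residue A ∘ algebraMap 𝒪 A))
    (o : 𝒪) : (cbResidueEquiv hres).symm (residue A (algebraMap 𝒪 A o)) = residue 𝒪 o := by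
  rw [← cbResidueEquiv_residue hres, RingEquiv.symm_apply_apply]

variable (𝒪 A) in
/-- The subspace of the cotangent space of `A` spanned by the image of `𝔪_𝒪`. -/
def cbW : Submodule (ResidueField A) (CotangentSpace A) :=
  Submodule.span (ResidueField A) (Set.range fun p : maximalIdeal 𝒪 =>
    (maximalIdeal A).toCotangent ⟨algebraMap 𝒪 A p, map_nonunit (algebraMap 𝒪 A) p p.2⟩)

theorem cb_toCotangent_smul (a : A) (x : maximalIdeal A) :
    (maximalIdeal A).toCotangent (a • x) = residue A a • (maximalIdeal A).toCotangent x := by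
  rw [map_smul]
  rfl

/-- A chosen lift to `𝒪` of the residue class of `a`. -/
def cbLift (hres : Function.Surjective (residue A ∘ algebraMap 𝒪 A)) (a : A) : 𝒪 :=
  Classical.choose (hres (residue A a))

omit [IsLocalRing 𝒪] [IsLocalHom (algebraMap 𝒪 A)] in
theorem cbLift_spec (hres : Function.Surjective (residue A ∘ algebraMap 𝒪 A)) (a : A) :
    residue A (algebraMap 𝒪 A (cbLift hres a)) = residue A a :=
  Classical.choose_spec (hres (residue A a))

omit [IsLocalRing 𝒪] [IsLocalHom (algebraMap 𝒪 A)] in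
theorem cb_sub_mem (hres : Function.Surjective (residue A ∘ algebraMap 𝒪 A)) (a : A) :
    a - algebraMap 𝒪 A (cbLift hres a) ∈ maximalIdeal A := by
  rw [← residue_eq_zero_iff, map_sub, cbLift_spec, sub_self]

/-- The "derivation" attached to a functional on the cotangent space. -/
def cbD (hres : Function.Surjective (residue A ∘ algebraMap 𝒪 A))
    (lam : CotangentSpace A →ₗ[ResidueField A] ResidueField A) (a : A) : ResidueField A :=
  lam ((maximalIdeal A).toCotangent ⟨a - algebraMap 𝒪 A (cbLift hres a), cb_sub_mem hres a⟩)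

/-- Key characterisation: `cbD` can be computed from any decomposition `a = alg o + x`. -/
theorem cbD_eq (hres : Function.Surjective (residue A ∘ algebraMap 𝒪 A))
    (lam : CotangentSpace A →ₗ[ResidueField A] ResidueField A)
    (hlam : cbW 𝒪 A ≤ LinearMap.ker lam) (a : A) (o : 𝒪) (x : maximalIdeal A)
    (h : a = algebraMap 𝒪 A o + x) :
    cbD hres lam a = lam ((maximalIdeal A).toCotangent x) := by
  have h1 : algebraMap 𝒪 A (o - cbLift hres a) ∈ maximalIdeal A := by
    have h2 : algebraMap 𝒪 A (o - cbLift hres a) = (a - algebraMap 𝒪 A (cbLift hres a)) - x := by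
      rw [map_sub]
      nth_rewrite 2 [h]
      ring
    rw [h2]
    exact (maximalIdeal A).sub_mem (cb_sub_mem hres a) x.2
  have h3 : o - cbLift hres a ∈ maximalIdeal 𝒪 := by
    rw [mem_maximalIdeal, mem_nonunits_iff]
    intro hu
    exact (mem_maximalIdeal _).1 h1 (hu.map (algebraMap 𝒪 A))
  have h4 : (⟨a - algebraMap 𝒪 A (cbLift hres a), cb_sub_mem hres a⟩ : maximalIdeal A) =
      ⟨algebraMap 𝒪 A (o - cbLift hres a), h1⟩ + x := by
    apply Subtype.ext
    show a - algebraMap 𝒪 A (cbLift hres a) = algebraMap 𝒪 A (o - cbLift hres a) + x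
    rw [map_sub]
    nth_rewrite 1 [h]
    ring
  have h5 : lam ((maximalIdeal A).toCotangent ⟨algebraMap 𝒪 A (o - cbLift hres a), h1⟩) = 0 := by
    have : (maximalIdeal A).toCotangent ⟨algebraMap 𝒪 A (o - cbLift hres a), h1⟩ ∈ cbW 𝒪 A :=
      Submodule.subset_span ⟨⟨o - cbLift hres a, h3⟩, rfl⟩
    exact hlam this
  unfold cbD
  rw [h4, map_add, map_add, h5, zero_add]

theorem cbD_algebraMap (hres : Function.Surjective (residue A ∘ algebraMap 𝒪 A))
    (lam : CotangentSpace A →ₗ[ResidueField A] ResidueField A)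
    (hlam : cbW 𝒪 A ≤ LinearMap.ker lam) (o : 𝒪) : cbD hres lam (algebraMap 𝒪 A o) = 0 := by
  rw [cbD_eq hres lam hlam (algebraMap 𝒪 A o) o 0 (by simp), map_zero, map_zero]

theorem cbD_of_mem (hres : Function.Surjective (residue A ∘ algebraMap 𝒪 A))
    (lam : CotangentSpace A →ₗ[ResidueField A] ResidueField A)
    (hlam : cbW 𝒪 A ≤ LinearMap.ker lam) (x : maximalIdeal A) :
    cbD hres lam (x : A) = lam ((maximalIdeal A).toCotangent x) :=
  cbD_eq hres lam hlam x 0 x (by simp)

theorem cbD_add (hres : Function.Surjective (residue A ∘ algebraMap 𝒪 A))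
    (lam : CotangentSpace A →ₗ[ResidueField A] ResidueField A)
    (hlam : cbW 𝒪 A ≤ LinearMap.ker lam) (a b : A) :
    cbD hres lam (a + b) = cbD hres lam a + cbD hres lam b := by
  set xa : maximalIdeal A := ⟨a - algebraMap 𝒪 A (cbLift hres a), cb_sub_mem hres a⟩ with hxa
  set xb : maximalIdeal A := ⟨b - algebraMap 𝒪 A (cbLift hres b), cb_sub_mem hres b⟩ with hxb
  rw [cbD_eq hres lam hlam (a + b) (cbLift hres a + cbLift hres b) (xa + xb)
    (by simp only [hxa, hxb, map_add, Submodule.coe_add]; ring), map_add, map_add]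
  rfl

theorem cbD_mul (hres : Function.Surjective (residue A ∘ algebraMap 𝒪 A))
    (lam : CotangentSpace A →ₗ[ResidueField A] ResidueField A)
    (hlam : cbW 𝒪 A ≤ LinearMap.ker lam) (a b : A) :
    cbD hres lam (a * b) = residue A a * cbD hres lam b + residue A b * cbD hres lam a := by
  obtain ⟨xa, hxa⟩ : ∃ xa : maximalIdeal A,
      xa = ⟨a - algebraMap 𝒪 A (cbLift hres a), cb_sub_mem hres a⟩ := ⟨_, rfl⟩
  obtain ⟨xb, hxb⟩ : ∃ xb : maximalIdeal A,
      xb = ⟨b - algebraMap 𝒪 A (cbLift hres b), cb_sub_mem hres b⟩ := ⟨_, rfl⟩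
  have hxa' : (xa : A) = a - algebraMap 𝒪 A (cbLift hres a) := by rw [hxa]
  have hxb' : (xb : A) = b - algebraMap 𝒪 A (cbLift hres b) := by rw [hxb]
  have hda : cbD hres lam a = lam ((maximalIdeal A).toCotangent xa) := by rw [hxa]; rfl
  have hdb : cbD hres lam b = lam ((maximalIdeal A).toCotangent xb) := by rw [hxb]; rfl
  have hra : residue A (xa : A) = 0 := (residue_eq_zero_iff _).2 xa.2
  have e1 : (maximalIdeal A).toCotangent
      (algebraMap 𝒪 A (cbLift hres a) • xb + algebraMap 𝒪 A (cbLift hres b) • xa + (xa : A) • xb) =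
      residue A a • (maximalIdeal A).toCotangent xb +
        residue A b • (maximalIdeal A).toCotangent xa := by
    rw [map_add, map_add, cb_toCotangent_smul, cb_toCotangent_smul, cb_toCotangent_smul,
      cbLift_spec, cbLift_spec, hra, zero_smul, add_zero]
  rw [cbD_eq hres lam hlam (a * b) (cbLift hres a * cbLift hres b)
    (algebraMap 𝒪 A (cbLift hres a) • xb + algebraMap 𝒪 A (cbLift hres b) • xa + (xa : A) • xb)
    (by
      simp only [map_mul, Submodule.coe_add, Submodule.coe_smul, smul_eq_mul, hxa', hxb']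
      ring),
    e1, map_add, map_smul, map_smul, smul_eq_mul, smul_eq_mul, hda, hdb]

/-- The ring homomorphism `A → k[ε]` attached to a functional on the cotangent space vanishing
on the image of `𝔪_𝒪`. -/
def cbRingHom (hres : Function.Surjective (residue A ∘ algebraMap 𝒪 A))
    (lam : CotangentSpace A →ₗ[ResidueField A] ResidueField A)
    (hlam : cbW 𝒪 A ≤ LinearMap.ker lam) : A →+* DualNumber (ResidueField 𝒪) where
  toFun a := TrivSqZeroExt.inl ((cbResidueEquiv hres).symm (residue A a)) +
    TrivSqZeroExt.inr ((cbResidueEquiv hres).symm (cbD hres lam a))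
  map_one' := by
    have h : cbD hres lam (1 : A) = 0 := by
      have := cbD_algebraMap hres lam hlam 1
      rwa [map_one] at this
    rw [h, map_one, map_one, map_zero, TrivSqZeroExt.inr_zero, add_zero, TrivSqZeroExt.inl_one]
  map_mul' a b := by
    apply TrivSqZeroExt.ext
    · simp
    · simp only [TrivSqZeroExt.snd_add, TrivSqZeroExt.snd_inl, TrivSqZeroExt.snd_inr, zero_add,
        TrivSqZeroExt.snd_mul, TrivSqZeroExt.fst_add, TrivSqZeroExt.fst_inl,
        TrivSqZeroExt.fst_inr, add_zero, smul_eq_mul, MulOpposite.smul_eq_mul_unop,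
        MulOpposite.unop_op]
      rw [cbD_mul hres lam hlam, map_add, map_mul, map_mul]
      ring
  map_zero' := by
    have h : cbD hres lam (0 : A) = 0 := by
      have := cbD_algebraMap hres lam hlam 0
      rwa [map_zero] at this
    rw [h, map_zero, map_zero, TrivSqZeroExt.inr_zero, add_zero, TrivSqZeroExt.inl_zero]
  map_add' a b := by
    rw [cbD_add hres lam hlam, map_add, map_add, map_add, TrivSqZeroExt.inl_add,
      TrivSqZeroExt.inr_add]
    abel

theorem cbRingHom_apply (hres : Function.Surjective (residue A ∘ algebraMap 𝒪 A))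
    (lam : CotangentSpace A →ₗ[ResidueField A] ResidueField A)
    (hlam : cbW 𝒪 A ≤ LinearMap.ker lam) (a : A) :
    cbRingHom hres lam hlam a = TrivSqZeroExt.inl ((cbResidueEquiv hres).symm (residue A a)) +
      TrivSqZeroExt.inr ((cbResidueEquiv hres).symm (cbD hres lam a)) := rfl

variable [Algebra 𝒪 (DualNumber (ResidueField 𝒪))]

/-- The `𝒪`-algebra homomorphism `A → k[ε]` attached to a functional on the cotangent space
vanishing on the image of `𝔪_𝒪`. -/
def cbAlgHom (hres : Function.Surjective (residue A ∘ algebraMap 𝒪 A))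
    (hinst : ∀ o : 𝒪, algebraMap 𝒪 (DualNumber (ResidueField 𝒪)) o =
      TrivSqZeroExt.inl (residue 𝒪 o))
    (lam : CotangentSpace A →ₗ[ResidueField A] ResidueField A)
    (hlam : cbW 𝒪 A ≤ LinearMap.ker lam) : A →ₐ[𝒪] DualNumber (ResidueField 𝒪) :=
  { cbRingHom hres lam hlam with
    commutes' := fun o => by
      show cbRingHom hres lam hlam (algebraMap 𝒪 A o) = _
      rw [cbRingHom_apply, cbD_algebraMap hres lam hlam, map_zero, TrivSqZeroExt.inr_zero,
        add_zero, cbResidueEquiv_symm_residue, hinst] }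

theorem cbAlgHom_snd_of_mem (hres : Function.Surjective (residue A ∘ algebraMap 𝒪 A))
    (hinst : ∀ o : 𝒪, algebraMap 𝒪 (DualNumber (ResidueField 𝒪)) o =
      TrivSqZeroExt.inl (residue 𝒪 o))
    (lam : CotangentSpace A →ₗ[ResidueField A] ResidueField A)
    (hlam : cbW 𝒪 A ≤ LinearMap.ker lam) (x : maximalIdeal A) :
    TrivSqZeroExt.snd (cbAlgHom hres hinst lam hlam (x : A)) =
      (cbResidueEquiv hres).symm (lam ((maximalIdeal A).toCotangent x)) := by
  show TrivSqZeroExt.snd (cbRingHom hres lam hlam (x : A)) = _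
  rw [cbRingHom_apply, cbD_of_mem hres lam hlam]
  simp

/-- Distinct functionals give distinct homomorphisms. -/
theorem cbAlgHom_injective (hres : Function.Surjective (residue A ∘ algebraMap 𝒪 A))
    (hinst : ∀ o : 𝒪, algebraMap 𝒪 (DualNumber (ResidueField 𝒪)) o =
      TrivSqZeroExt.inl (residue 𝒪 o))
    (lam lam' : CotangentSpace A →ₗ[ResidueField A] ResidueField A)
    (hlam : cbW 𝒪 A ≤ LinearMap.ker lam) (hlam' : cbW 𝒪 A ≤ LinearMap.ker lam')
    (h : cbAlgHom hres hinst lam hlam = cbAlgHom hres hinst lam' hlam') : lam = lam' := by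
  refine LinearMap.ext fun v => ?_
  obtain ⟨x, rfl⟩ := (maximalIdeal A).toCotangent_surjective v
  have h1 := cbAlgHom_snd_of_mem hres hinst lam hlam x
  have h2 := cbAlgHom_snd_of_mem hres hinst lam' hlam' x
  rw [h, h2] at h1
  exact ((cbResidueEquiv hres).symm.injective h1).symm

end CB2

section CB2count

variable {𝒪 A : Type} [CommRing 𝒪] [IsLocalRing 𝒪] [CommRing A] [IsLocalRing A] [Algebra 𝒪 A]
  [IsLocalHom (algebraMap 𝒪 A)]

/-- If there are at most `N` algebra homomorphisms `A → k[ε]`, then `q ^ d ≤ N` where `d` is the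
dimension of the relative cotangent space of `A` over `𝒪`. -/
theorem cb_pow_finrank_le [Algebra 𝒪 (DualNumber (ResidueField 𝒪))] [Finite (ResidueField 𝒪)]
    [IsNoetherianRing A]
    (hres : Function.Surjective (residue A ∘ algebraMap 𝒪 A))
    (hinst : ∀ o : 𝒪, algebraMap 𝒪 (DualNumber (ResidueField 𝒪)) o =
      TrivSqZeroExt.inl (residue 𝒪 o))
    (N : ℕ) (hN : ∀ F : Finset (A →ₐ[𝒪] DualNumber (ResidueField 𝒪)), F.card ≤ N) :
    Nat.card (ResidueField 𝒪) ^
      Module.finrank (ResidueField A) (CotangentSpace A ⧸ cbW 𝒪 A) ≤ N := by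
  classical
  have hfinA : Finite (ResidueField A) := Finite.of_equiv _ (cbResidueEquiv hres).toEquiv
  let Φ : Module.Dual (ResidueField A) (CotangentSpace A ⧸ cbW 𝒪 A) →
      (A →ₐ[𝒪] DualNumber (ResidueField 𝒪)) := fun μ =>
    cbAlgHom hres hinst (μ.comp (cbW 𝒪 A).mkQ) (by
      intro v hv
      rw [LinearMap.mem_ker, LinearMap.comp_apply, Submodule.mkQ_apply,
        (Submodule.Quotient.mk_eq_zero _).2 hv, map_zero])
  have hΦ : Function.Injective Φ := by
    intro μ μ' h
    have h1 := cbAlgHom_injective hres hinst _ _ _ _ h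
    refine LinearMap.ext fun v => ?_
    obtain ⟨w, rfl⟩ := Submodule.mkQ_surjective _ v
    exact LinearMap.congr_fun h1 w
  have hfinD : Finite (Module.Dual (ResidueField A) (CotangentSpace A ⧸ cbW 𝒪 A)) :=
    Module.finite_of_finite (ResidueField A)
  have : Fintype (Module.Dual (ResidueField A) (CotangentSpace A ⧸ cbW 𝒪 A)) :=
    Fintype.ofFinite _
  have hcard : (Finset.univ.image Φ).card =
      Nat.card (Module.Dual (ResidueField A) (CotangentSpace A ⧸ cbW 𝒪 A)) := by
    rw [Finset.card_image_of_injective _ hΦ, Finset.card_univ, Nat.card_eq_fintype_card]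
  have h2 := hN (Finset.univ.image Φ)
  rw [hcard, Module.natCard_eq_pow_finrank (K := ResidueField A), Subspace.dual_finrank_eq,
    ← Nat.card_congr (cbResidueEquiv hres).toEquiv] at h2
  exact h2

/-- The maximal ideal of `A` is generated by the images of generators of `𝔪_𝒪` together with
`d` further elements, `d` the dimension of the relative cotangent space. -/
theorem cb_exists_gens [IsNoetherianRing A] (P : Finset 𝒪)
    (hP : maximalIdeal 𝒪 = Ideal.span (P : Set 𝒪)) :
    ∃ s : Finset A,
      s.card ≤ P.card + Module.finrank (ResidueField A) (CotangentSpace A ⧸ cbW 𝒪 A) ∧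
      maximalIdeal A = Ideal.span (s : Set A) := by
  classical
  set d := Module.finrank (ResidueField A) (CotangentSpace A ⧸ cbW 𝒪 A) with hd
  let b := Module.finBasis (ResidueField A) (CotangentSpace A ⧸ cbW 𝒪 A)
  have hx : ∀ i : Fin d, ∃ x : maximalIdeal A,
      (cbW 𝒪 A).mkQ ((maximalIdeal A).toCotangent x) = b i := by
    intro i
    obtain ⟨v, hv⟩ := Submodule.mkQ_surjective (cbW 𝒪 A) (b i)
    obtain ⟨x, rfl⟩ := (maximalIdeal A).toCotangent_surjective v
    exact ⟨x, hv⟩
  choose x hx using hx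
  have hPmem : ∀ p ∈ P, algebraMap 𝒪 A p ∈ maximalIdeal A := fun p hp =>
    map_nonunit (algebraMap 𝒪 A) p (by rw [hP]; exact Ideal.subset_span hp)
  let S : Set (maximalIdeal A) := Set.range x ∪
    Set.range fun p : P => (⟨algebraMap 𝒪 A p, hPmem p p.2⟩ : maximalIdeal A)
  set U : Submodule (ResidueField A) (CotangentSpace A) :=
    Submodule.span (ResidueField A) ((maximalIdeal A).toCotangent '' S) with hU
  -- `W ≤ U`
  have hWU : cbW 𝒪 A ≤ U := by
    refine Submodule.span_le.mpr ?_
    rintro _ ⟨p', rfl⟩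
    have hp' : (p' : 𝒪) ∈ Submodule.span 𝒪 (P : Set 𝒪) := by
      have h0 : (p' : 𝒪) ∈ Ideal.span (P : Set 𝒪) := hP ▸ p'.2
      exact h0
    obtain ⟨c, hc⟩ := Submodule.mem_span_finset'.mp hp'
    have h1 : (⟨algebraMap 𝒪 A p', map_nonunit (algebraMap 𝒪 A) p' p'.2⟩ : maximalIdeal A) =
        ∑ p : P, algebraMap 𝒪 A (c p) • (⟨algebraMap 𝒪 A p, hPmem p p.2⟩ : maximalIdeal A) := by
      apply Subtype.ext
      rw [Submodule.coe_sum]
      simp only [Submodule.coe_smul, smul_eq_mul]
      rw [← hc, map_sum]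
      simp [smul_eq_mul]
    show (maximalIdeal A).toCotangent
      ⟨algebraMap 𝒪 A p', map_nonunit (algebraMap 𝒪 A) p' p'.2⟩ ∈ U
    rw [h1, map_sum]
    refine Submodule.sum_mem _ fun p _ => ?_
    rw [cb_toCotangent_smul]
    refine Submodule.smul_mem _ _ (Submodule.subset_span ⟨_, ?_, rfl⟩)
    exact Or.inr ⟨p, rfl⟩
  -- `U = ⊤`
  have hUtop : U = ⊤ := by
    have h1 : Submodule.map (cbW 𝒪 A).mkQ U = ⊤ := by
      rw [eq_top_iff, ← b.span_eq]
      refine Submodule.span_le.mpr ?_
      rintro _ ⟨i, rfl⟩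
      refine ⟨(maximalIdeal A).toCotangent (x i), ?_, hx i⟩
      exact Submodule.subset_span ⟨x i, Or.inl ⟨i, rfl⟩, rfl⟩
    rw [Submodule.map_mkQ_eq_top] at h1
    rwa [sup_eq_right.mpr hWU] at h1
  have hStop : Submodule.span A S = ⊤ := CotangentSpace.span_image_eq_top_iff.mp hUtop
  refine ⟨Finset.univ.image (fun i => (x i : A)) ∪ P.image (algebraMap 𝒪 A), ?_, ?_⟩
  · calc _ ≤ (Finset.univ.image (fun i => (x i : A))).card + (P.image (algebraMap 𝒪 A)).card :=
        Finset.card_union_le _ _
      _ ≤ d + P.card := by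
        refine Nat.add_le_add ?_ Finset.card_image_le
        exact Finset.card_image_le.trans (by simp)
      _ = P.card + d := Nat.add_comm _ _
  · apply le_antisymm
    · intro y hy
      have h1 : (⟨y, hy⟩ : maximalIdeal A) ∈ Submodule.span A S := by
        rw [hStop]; exact Submodule.mem_top
      have h2 : Submodule.map (maximalIdeal A).subtype (Submodule.span A S) ≤
          Ideal.span ((Finset.univ.image (fun i => (x i : A)) ∪ P.image (algebraMap 𝒪 A) :
            Finset A) : Set A) := by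
        rw [Submodule.map_span]
        refine Submodule.span_mono ?_
        rintro _ ⟨z, hz, rfl⟩
        rcases hz with ⟨i, rfl⟩ | ⟨p, rfl⟩
        · simp
        · simp only [Finset.coe_union, Finset.coe_image, Set.mem_union, Set.mem_image,
            Finset.mem_coe]
          exact Or.inr ⟨p, p.2, rfl⟩
      exact h2 ⟨⟨y, hy⟩, h1, rfl⟩
    · refine Ideal.span_le.mpr ?_
      intro y hy
      simp only [Finset.coe_union, Finset.coe_image, Set.mem_union, Set.mem_image,
        Finset.mem_coe, Finset.mem_univ, true_and] at hy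
      rcases hy with ⟨i, rfl⟩ | ⟨p, hp, rfl⟩
      · exact (x i).2
      · exact hPmem p hp

/-- **CB2**: for a Noetherian local `𝒪`-algebra `A` with local, residually surjective structure
map and at most `N` algebra homomorphisms to `k[ε]`, the maximal ideal of `A` is generated by at
most `|P| + log_q N` elements, where `P` generates `𝔪_𝒪` and `q = |k|`. -/
theorem cb_exists_gens_of_card_le [Algebra 𝒪 (DualNumber (ResidueField 𝒪))]
    [Finite (ResidueField 𝒪)] [IsNoetherianRing A]
    (hres : Function.Surjective (residue A ∘ algebraMap 𝒪 A))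
    (hinst : ∀ o : 𝒪, algebraMap 𝒪 (DualNumber (ResidueField 𝒪)) o =
      TrivSqZeroExt.inl (residue 𝒪 o))
    (P : Finset 𝒪) (hP : maximalIdeal 𝒪 = Ideal.span (P : Set 𝒪))
    (N : ℕ) (hN : ∀ F : Finset (A →ₐ[𝒪] DualNumber (ResidueField 𝒪)), F.card ≤ N) :
    ∃ s : Finset A, s.card ≤ P.card + Nat.log (Nat.card (ResidueField 𝒪)) N ∧
      maximalIdeal A = Ideal.span (s : Set A) := by
  obtain ⟨s, hs, hspan⟩ := cb_exists_gens (𝒪 := 𝒪) (A := A) P hP
  refine ⟨s, hs.trans (Nat.add_le_add_left ?_ _), hspan⟩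
  exact Nat.le_log_of_pow_le Finite.one_lt_card (cb_pow_finrank_le hres hinst N hN)

/-- **CB3**: uniform cardinality bound. A local `𝒪`-algebra `A` with local, residually surjective
structure map, Artinian with `𝔪_A ^ (n+1) = ⊥`, having at most `N` algebra homomorphisms to
`k[ε]`, is finite of cardinality at most `q ^ (∑ i ≤ n, (|P| + log_q N) ^ i)`. -/
theorem cb_card_le_of_homs [Algebra 𝒪 (DualNumber (ResidueField 𝒪))]
    [Finite (ResidueField 𝒪)] [IsNoetherianRing A]
    (hres : Function.Surjective (residue A ∘ algebraMap 𝒪 A))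
    (hinst : ∀ o : 𝒪, algebraMap 𝒪 (DualNumber (ResidueField 𝒪)) o =
      TrivSqZeroExt.inl (residue 𝒪 o))
    (P : Finset 𝒪) (hP : maximalIdeal 𝒪 = Ideal.span (P : Set 𝒪))
    (N : ℕ) (hN : ∀ F : Finset (A →ₐ[𝒪] DualNumber (ResidueField 𝒪)), F.card ≤ N)
    (n : ℕ) (hn : maximalIdeal A ^ (n + 1) = ⊥) :
    Finite A ∧ Nat.card A ≤ Nat.card (ResidueField 𝒪) ^
      (∑ i ∈ Finset.range (n + 1), (P.card + Nat.log (Nat.card (ResidueField 𝒪)) N) ^ i) := by
  have hfinA : Finite (ResidueField A) := Finite.of_equiv _ (cbResidueEquiv hres).toEquiv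
  obtain ⟨s, hs, hspan⟩ := cb_exists_gens_of_card_le hres hinst P hP N hN
  have h := cb_card_le_of_le s hspan hs n hn
  rwa [← Nat.card_congr (cbResidueEquiv hres).toEquiv] at h

end CB2count

section TestAlgebra

variable {𝒪 A : Type} [CommRing 𝒪] [IsLocalRing 𝒪] [CommRing A] [IsLocalRing A] [Algebra 𝒪 A]

/-- **CB3 for test algebras**: an Artinian test algebra `A` with `𝔪_A ^ (n+1) = ⊥` having at
most `N` algebra homomorphisms to `k[ε]` is finite, of cardinality bounded in terms of `n`, `N`,
`q = |k|` and the number of generators of `𝔪_𝒪` only. The `𝒪`-algebra structure on `k[ε]` is any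
instance whose structure map is the canonical one. -/
theorem cb_card_le_of_isArtinianTestAlgebra [Finite (ResidueField 𝒪)]
    (hA : GaloisRep.IsArtinianTestAlgebra 𝒪 A)
    [Algebra 𝒪 (DualNumber (ResidueField 𝒪))]
    (hinst : algebraMap 𝒪 (DualNumber (ResidueField 𝒪)) =
      (algebraMap (ResidueField 𝒪) (DualNumber (ResidueField 𝒪))).comp
        (algebraMap 𝒪 (ResidueField 𝒪)))
    (P : Finset 𝒪) (hP : maximalIdeal 𝒪 = Ideal.span (P : Set 𝒪))
    (N : ℕ) (hN : ∀ F : Finset (A →ₐ[𝒪] DualNumber (ResidueField 𝒪)), F.card ≤ N)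
    (n : ℕ) (hn : maximalIdeal A ^ (n + 1) = ⊥) :
    Finite A ∧ Nat.card A ≤ Nat.card (ResidueField 𝒪) ^
      (∑ i ∈ Finset.range (n + 1), (P.card + Nat.log (Nat.card (ResidueField 𝒪)) N) ^ i) := by
  have h1 : IsLocalHom (algebraMap 𝒪 A) := hA.isLocalHom
  have h2 : IsArtinianRing A := hA.isArtinian
  refine cb_card_le_of_homs hA.residue_surjective (fun o => ?_) P hP N hN n hn
  rw [hinst]
  rfl

/-- The generator bound for test algebras (CB2). -/
theorem cb_exists_gens_of_isArtinianTestAlgebra [Finite (ResidueField 𝒪)]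
    (hA : GaloisRep.IsArtinianTestAlgebra 𝒪 A)
    [Algebra 𝒪 (DualNumber (ResidueField 𝒪))]
    (hinst : algebraMap 𝒪 (DualNumber (ResidueField 𝒪)) =
      (algebraMap (ResidueField 𝒪) (DualNumber (ResidueField 𝒪))).comp
        (algebraMap 𝒪 (ResidueField 𝒪)))
    (P : Finset 𝒪) (hP : maximalIdeal 𝒪 = Ideal.span (P : Set 𝒪))
    (N : ℕ) (hN : ∀ F : Finset (A →ₐ[𝒪] DualNumber (ResidueField 𝒪)), F.card ≤ N) :
    ∃ s : Finset A, s.card ≤ P.card + Nat.log (Nat.card (ResidueField 𝒪)) N ∧
      maximalIdeal A = Ideal.span (s : Set A) := by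
  have h1 : IsLocalHom (algebraMap 𝒪 A) := hA.isLocalHom
  have h2 : IsArtinianRing A := hA.isArtinian
  refine cb_exists_gens_of_card_le hA.residue_surjective (fun o => ?_) P hP N hN
  rw [hinst]
  rfl

end TestAlgebra

end Fermat.Agent.S53
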