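import Mathlib
import Fermat.Prelude.Def_GaloisRep_DeformationCondition
import Fermat.Agent.S53.GoodIdeals.CotangentHoms
import Fermat.Agent.S53.GoodBound

/-!
# S53, block M3 (counting): the uniform cardinality bound for good points

Glue between CB3 (`cb_card_le_of_isArtinianTestAlgebra`) and `good_card_bound_of_cardBound`:
a uniform bound on the cardinality of test algebras `A` with `𝔪_A ^ (n+1) = ⊥` carrying a
surjective good point `Lam 𝒪 → A`.
-/

set_option autoImplicit false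

open IsLocalRing GaloisRep

namespace Fermat.Agent.S53

section

variable {𝒪 : Type} [CommRing 𝒪] [IsLocalRing 𝒪]

/-- CB3 in the shape of the hypothesis `hCB` of `good_card_bound_of_cardBound`. -/
theorem cb_cardBound [Finite (ResidueField 𝒪)] (P : Finset 𝒪)
    (hP : maximalIdeal 𝒪 = Ideal.span (P : Set 𝒪)) (N n : ℕ) :
    ∃ Bd : ℕ, ∀ {A : Type} [CommRing A] [IsLocalRing A] [Algebra 𝒪 A],
      GaloisRep.IsArtinianTestAlgebra 𝒪 A → maximalIdeal A ^ (n + 1) = ⊥ →
      (letI := dualNumberAlgebra 𝒪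
       Finite (A →ₐ[𝒪] DualNumber (ResidueField 𝒪)) ∧
        Nat.card (A →ₐ[𝒪] DualNumber (ResidueField 𝒪)) ≤ N) →
      Finite A ∧ Nat.card A ≤ Bd := by
  refine ⟨Nat.card (ResidueField 𝒪) ^
    (∑ i ∈ Finset.range (n + 1), (P.card + Nat.log (Nat.card (ResidueField 𝒪)) N) ^ i), ?_⟩
  intro A _ _ _ hA hn hH
  let _ := dualNumberAlgebra 𝒪
  obtain ⟨hfinH, hcardH⟩ := hH
  refine cb_card_le_of_isArtinianTestAlgebra hA rfl P hP N (fun F => ?_) n hn
  have : Fintype (A →ₐ[𝒪] DualNumber (ResidueField 𝒪)) := Fintype.ofFinite _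
  calc F.card ≤ Fintype.card (A →ₐ[𝒪] DualNumber (ResidueField 𝒪)) := Finset.card_le_univ F
    _ = Nat.card (A →ₐ[𝒪] DualNumber (ResidueField 𝒪)) := Nat.card_eq_fintype_card.symm
    _ ≤ N := hcardH

variable (S : SliceData 𝒪)
  (𝒟 : ∀ ⦃A : Type⦄ [CommRing A] [IsLocalRing A] [Algebra 𝒪 A], GaloisRepAdic A → Prop)

/-- **The uniform cardinality bound** for test algebras of level `n` carrying a surjective good
point (second route: CB1 + CB2 + finiteness of the good tangent points). -/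
theorem cb_good_card_bound [Finite (ResidueField 𝒪)]
    (h𝒟 : GaloisRep.IsDeformationCondition 𝒪 𝒟)
    (P : Finset 𝒪) (hP : maximalIdeal 𝒪 = Ideal.span (P : Set 𝒪))
    {ρbar : ResidualGaloisRep (ResidueField 𝒪)}
    (hrb : ρbar.IsEquiv S.rb.toResidualGaloisRep)
    (hfin : GaloisRep.TangentFinite 𝒪 ρbar 𝒟) (n : ℕ) :
    ∃ N : ℕ, ∀ (A : Type) [CommRing A] [IsLocalRing A] [Algebra 𝒪 A],
      GaloisRep.IsArtinianTestAlgebra 𝒪 A → maximalIdeal A ^ (n + 1) = ⊥ →
      ∀ f : Lam 𝒪 →ₐ[𝒪] A, Function.Surjective f → good S 𝒟 f → Finite A ∧ Nat.card A ≤ N := by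
  obtain ⟨Bd, hBd⟩ := good_card_bound_of_cardBound S 𝒟 h𝒟 hrb hfin
    (fun N n => cb_cardBound P hP N n) n
  exact ⟨Bd, fun A _ _ _ hA hn f hsurj hf => hBd hA hn f hsurj hf⟩

end

end Fermat.Agent.S53
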