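import Mathlib
import Fermat.Prelude.Def_GaloisRep_DeformationCondition
import Fermat.Agent.S53.Tangent

/-!
# S53, block M3 (counting): a separating homomorphism to the dual numbers

For a local `𝒪`-algebra `A` whose residue field is that of `𝒪`, and `x ∈ 𝔪_A` not in
`𝔪_A ^ 2 + 𝔪_𝒪 A`, there is an `𝒪`-algebra homomorphism `A → k[ε]` not killing `x`.
-/

set_option autoImplicit false
set_option linter.style.haveILetI false

open IsLocalRing

namespace Fermat.Agent.S53

noncomputable section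

section SepHom

variable (𝒪 : Type) [CommRing 𝒪] [IsLocalRing 𝒪]
variable (A : Type) [CommRing A] [IsLocalRing A] [Algebra 𝒪 A]

/-- The relative square of the maximal ideal: `𝔪_A ^ 2 + 𝔪_𝒪 A`. -/
def cbr_relSq : Ideal A := maximalIdeal A ^ 2 ⊔ (maximalIdeal 𝒪).map (algebraMap 𝒪 A)

variable {𝒪 A}

lemma cbr_relSq_le [IsLocalHom (algebraMap 𝒪 A)] : cbr_relSq 𝒪 A ≤ maximalIdeal A := by
  refine sup_le (Ideal.pow_le_self two_ne_zero) ?_
  rw [Ideal.map_le_iff_le_comap]
  intro c hc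
  exact map_nonunit (algebraMap 𝒪 A) c hc

lemma cbr_algebraMap_mem_relSq {c : 𝒪} (hc : c ∈ maximalIdeal 𝒪) :
    algebraMap 𝒪 A c ∈ cbr_relSq 𝒪 A :=
  Ideal.mem_sup_right (Ideal.mem_map_of_mem _ hc)

lemma cbr_mul_mem_relSq {a b : A} (ha : a ∈ maximalIdeal A) (hb : b ∈ maximalIdeal A) :
    a * b ∈ cbr_relSq 𝒪 A :=
  Ideal.mem_sup_left (by rw [pow_two]; exact Ideal.mul_mem_mul ha hb)

/-- The ring homomorphism `k → A ⧸ (𝔪_A ^ 2 + 𝔪_𝒪 A)`. -/
def cbr_kToQuot : ResidueField 𝒪 →+* A ⧸ cbr_relSq 𝒪 A :=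
  Ideal.Quotient.lift (maximalIdeal 𝒪) ((Ideal.Quotient.mk (cbr_relSq 𝒪 A)).comp (algebraMap 𝒪 A))
    (fun c hc => by
      rw [RingHom.comp_apply, Ideal.Quotient.eq_zero_iff_mem]
      exact cbr_algebraMap_mem_relSq hc)

lemma cbr_kToQuot_residue (c : 𝒪) :
    cbr_kToQuot (A := A) (residue 𝒪 c) = Ideal.Quotient.mk (cbr_relSq 𝒪 A) (algebraMap 𝒪 A c) :=
  rfl


lemma cbr_residueFieldMap_bijective [IsLocalHom (algebraMap 𝒪 A)]
    (hres : Function.Surjective (residue A ∘ algebraMap 𝒪 A)) :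
    Function.Bijective (ResidueField.map (algebraMap 𝒪 A)) :=
  ⟨(ResidueField.map (algebraMap 𝒪 A)).injective, fun y => by
      obtain ⟨c, hc⟩ := hres y
      exact ⟨residue 𝒪 c, by rw [ResidueField.map_residue]; exact hc⟩⟩

/-- The residue map to `k`. -/
def cbr_resToK [IsLocalHom (algebraMap 𝒪 A)]
    (hres : Function.Surjective (residue A ∘ algebraMap 𝒪 A)) : A →+* ResidueField 𝒪 :=
  ((RingEquiv.ofBijective (ResidueField.map (algebraMap 𝒪 A))
    (cbr_residueFieldMap_bijective hres)).symm :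
      ResidueField A →+* ResidueField 𝒪).comp (residue A)

lemma cbr_resToK_algebraMap [IsLocalHom (algebraMap 𝒪 A)]
    (hres : Function.Surjective (residue A ∘ algebraMap 𝒪 A)) (c : 𝒪) :
    cbr_resToK hres (algebraMap 𝒪 A c) = residue 𝒪 c := by
  unfold cbr_resToK
  rw [RingHom.comp_apply, ← ResidueField.map_residue]
  exact RingEquiv.symm_apply_apply (RingEquiv.ofBijective (ResidueField.map (algebraMap 𝒪 A))
    (cbr_residueFieldMap_bijective hres)) (residue 𝒪 c)

lemma cbr_resToK_eq_zero [IsLocalHom (algebraMap 𝒪 A)]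
    (hres : Function.Surjective (residue A ∘ algebraMap 𝒪 A)) {a : A} (ha : a ∈ maximalIdeal A) :
    cbr_resToK hres a = 0 := by
  unfold cbr_resToK
  rw [RingHom.comp_apply, (residue_eq_zero_iff a).mpr ha, map_zero]

lemma cbr_resToK_eq_zero_iff [IsLocalHom (algebraMap 𝒪 A)]
    (hres : Function.Surjective (residue A ∘ algebraMap 𝒪 A)) (a : A) :
    cbr_resToK hres a = 0 ↔ a ∈ maximalIdeal A := by
  refine ⟨fun h => ?_, cbr_resToK_eq_zero hres⟩
  unfold cbr_resToK at h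
  rw [RingHom.comp_apply] at h
  have h2 : residue A a = 0 := by
    have := (RingEquiv.ofBijective (ResidueField.map (algebraMap 𝒪 A))
      (cbr_residueFieldMap_bijective hres)).symm.injective (h.trans (map_zero _).symm)
    exact this
  exact (residue_eq_zero_iff a).mp h2

omit [IsLocalRing 𝒪] in
lemma cbr_exists_decomp (hres : Function.Surjective (residue A ∘ algebraMap 𝒪 A)) (a : A) :
    ∃ (c : 𝒪) (m : A), m ∈ maximalIdeal A ∧ a = algebraMap 𝒪 A c + m := by
  obtain ⟨c, hc⟩ := hres (residue A a)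
  refine ⟨c, a - algebraMap 𝒪 A c, ?_, by ring⟩
  rw [← residue_eq_zero_iff, map_sub, sub_eq_zero]
  exact hc.symm

/-- The algebra homomorphism to the dual numbers attached to a functional. -/
def cbr_homOfFunctional [IsLocalHom (algebraMap 𝒪 A)]
    (hres : Function.Surjective (residue A ∘ algebraMap 𝒪 A)) (lam : A →+ ResidueField 𝒪)
    (h1 : ∀ (c : 𝒪) (a : A), lam (algebraMap 𝒪 A c * a) = residue 𝒪 c * lam a)
    (h2 : lam 1 = 0) (h3 : ∀ q ∈ cbr_relSq 𝒪 A, lam q = 0) :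
    letI := dualNumberAlgebra 𝒪
    A →ₐ[𝒪] DualNumber (ResidueField 𝒪) :=
  letI := dualNumberAlgebra 𝒪
  have hder : ∀ a b : A, lam (a * b) = cbr_resToK hres a * lam b + lam a * cbr_resToK hres b := by
    intro a b
    obtain ⟨c, m, hm, rfl⟩ := cbr_exists_decomp hres a
    obtain ⟨c', m', hm', rfl⟩ := cbr_exists_decomp hres b
    have e1 : (algebraMap 𝒪 A c + m) * (algebraMap 𝒪 A c' + m') =
        algebraMap 𝒪 A (c * c') * 1 + algebraMap 𝒪 A c * m' + algebraMap 𝒪 A c' * m + m * m' := by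
      rw [map_mul]; ring
    have e2 : lam (algebraMap 𝒪 A c' + m') = lam m' := by
      rw [map_add, ← mul_one (algebraMap 𝒪 A c'), h1, h2, mul_zero, zero_add]
    have e3 : lam (algebraMap 𝒪 A c + m) = lam m := by
      rw [map_add, ← mul_one (algebraMap 𝒪 A c), h1, h2, mul_zero, zero_add]
    rw [e1, map_add, map_add, map_add, h1, h1, h1, h2, h3 _ (cbr_mul_mem_relSq hm hm'), e2, e3,
      map_add, map_add, cbr_resToK_algebraMap, cbr_resToK_algebraMap, cbr_resToK_eq_zero hres hm,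
      cbr_resToK_eq_zero hres hm']
    ring
  { toFun := fun a => (TrivSqZeroExt.inl (cbr_resToK hres a) + TrivSqZeroExt.inr (lam a) :
      TrivSqZeroExt (ResidueField 𝒪) (ResidueField 𝒪))
    map_one' := by
      rw [map_one, h2, TrivSqZeroExt.inr_zero, add_zero, TrivSqZeroExt.inl_one]
    map_mul' := fun a b => by
      apply TrivSqZeroExt.ext
      · simp
      · simp only [TrivSqZeroExt.snd_add, TrivSqZeroExt.snd_inl, TrivSqZeroExt.snd_inr, zero_add,
          TrivSqZeroExt.snd_mul, TrivSqZeroExt.fst_add, TrivSqZeroExt.fst_inl,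
          TrivSqZeroExt.fst_inr, add_zero, smul_eq_mul, MulOpposite.smul_eq_mul_unop,
          MulOpposite.unop_op]
        exact hder a b
    map_zero' := by
      rw [map_zero, map_zero, TrivSqZeroExt.inr_zero, add_zero, TrivSqZeroExt.inl_zero]
    map_add' := fun a b => by
      rw [map_add, map_add, TrivSqZeroExt.inl_add, TrivSqZeroExt.inr_add]
      abel
    commutes' := fun c => by
      show (TrivSqZeroExt.inl (cbr_resToK hres (algebraMap 𝒪 A c)) +
        TrivSqZeroExt.inr (lam (algebraMap 𝒪 A c)) :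
          TrivSqZeroExt (ResidueField 𝒪) (ResidueField 𝒪)) = _
      rw [algebraMap_dualNumber_apply, TrivSqZeroExt.algebraMap_eq_inl, cbr_resToK_algebraMap,
        ← mul_one (algebraMap 𝒪 A c), h1, h2, mul_zero, TrivSqZeroExt.inr_zero, add_zero] }


theorem cbr_exists_functional [IsLocalHom (algebraMap 𝒪 A)] {x : A}
    (hxQ : x ∉ cbr_relSq 𝒪 A) (hx : x ∈ maximalIdeal A) :
    ∃ lam : A →+ ResidueField 𝒪,
      (∀ (c : 𝒪) (a : A), lam (algebraMap 𝒪 A c * a) = residue 𝒪 c * lam a) ∧ lam 1 = 0 ∧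
      (∀ q ∈ cbr_relSq 𝒪 A, lam q = 0) ∧ lam x ≠ 0 := by
  letI : Algebra (ResidueField 𝒪) (A ⧸ cbr_relSq 𝒪 A) := (cbr_kToQuot (A := A)).toAlgebra
  set p : Submodule (ResidueField 𝒪) (A ⧸ cbr_relSq 𝒪 A) :=
    Submodule.span (ResidueField 𝒪) {(1 : A ⧸ cbr_relSq 𝒪 A)} with hp
  have hxp : Ideal.Quotient.mk (cbr_relSq 𝒪 A) x ∉ p := by
    intro hmem
    rw [hp, Submodule.mem_span_singleton] at hmem
    obtain ⟨t, ht⟩ := hmem
    obtain ⟨c, rfl⟩ := residue_surjective t
    rw [Algebra.smul_def, mul_one] at ht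
    have ht' : Ideal.Quotient.mk (cbr_relSq 𝒪 A) (algebraMap 𝒪 A c) =
        Ideal.Quotient.mk (cbr_relSq 𝒪 A) x := ht
    rw [Ideal.Quotient.eq] at ht'
    have h1 : algebraMap 𝒪 A c - x ∈ maximalIdeal A := cbr_relSq_le ht'
    have h2 : algebraMap 𝒪 A c ∈ maximalIdeal A := by
      have := (maximalIdeal A).add_mem h1 hx
      rwa [sub_add_cancel] at this
    have h3 : c ∈ maximalIdeal 𝒪 := by
      by_contra hc
      have hcu : IsUnit c := by
        by_contra hnu
        exact hc hnu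
      exact h2 (hcu.map (algebraMap 𝒪 A))
    apply hxQ
    have h4 := (cbr_relSq 𝒪 A).sub_mem (cbr_algebraMap_mem_relSq (A := A) h3) ht'
    rwa [sub_sub_cancel] at h4
  obtain ⟨φ, hφx, hφp⟩ := Submodule.exists_dual_map_eq_bot_of_notMem hxp inferInstance
  have hφ1 : φ 1 = 0 := by
    have : φ 1 ∈ p.map φ := Submodule.mem_map_of_mem (Submodule.mem_span_singleton_self _)
    rw [hφp] at this
    exact (Submodule.mem_bot _).mp this
  refine ⟨φ.toAddMonoidHom.comp (Ideal.Quotient.mk (cbr_relSq 𝒪 A)).toAddMonoidHom, ?_, ?_, ?_, ?_⟩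
  · intro c a
    show φ (Ideal.Quotient.mk _ (algebraMap 𝒪 A c * a)) = residue 𝒪 c * φ (Ideal.Quotient.mk _ a)
    rw [map_mul, ← cbr_kToQuot_residue, ← smul_eq_mul (a := residue 𝒪 c), ← map_smul,
      Algebra.smul_def]
    rfl
  · show φ (Ideal.Quotient.mk _ 1) = 0
    rw [map_one, hφ1]
  · intro q hq
    show φ (Ideal.Quotient.mk _ q) = 0
    rw [Ideal.Quotient.eq_zero_iff_mem.mpr hq, map_zero]
  · exact hφx


lemma cbr_homOfFunctional_apply [IsLocalHom (algebraMap 𝒪 A)]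
    (hres : Function.Surjective (residue A ∘ algebraMap 𝒪 A)) (lam : A →+ ResidueField 𝒪)
    (h1 : ∀ (c : 𝒪) (a : A), lam (algebraMap 𝒪 A c * a) = residue 𝒪 c * lam a)
    (h2 : lam 1 = 0) (h3 : ∀ q ∈ cbr_relSq 𝒪 A, lam q = 0) (a : A) :
    letI := dualNumberAlgebra 𝒪
    cbr_homOfFunctional hres lam h1 h2 h3 a =
      (TrivSqZeroExt.inl (cbr_resToK hres a) + TrivSqZeroExt.inr (lam a) :
        TrivSqZeroExt (ResidueField 𝒪) (ResidueField 𝒪)) := rfl

/-- The trivial point `A → k → k[ε]`. -/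
def cbr_trivHom [IsLocalHom (algebraMap 𝒪 A)]
    (hres : Function.Surjective (residue A ∘ algebraMap 𝒪 A)) :
    letI := dualNumberAlgebra 𝒪
    A →ₐ[𝒪] DualNumber (ResidueField 𝒪) :=
  cbr_homOfFunctional hres 0 (fun _ _ => by simp) rfl (fun _ _ => rfl)

lemma cbr_fst_trivHom [IsLocalHom (algebraMap 𝒪 A)]
    (hres : Function.Surjective (residue A ∘ algebraMap 𝒪 A)) (a : A) :
    TrivSqZeroExt.fst (cbr_trivHom hres a) = cbr_resToK hres a := by
  unfold cbr_trivHom
  rw [cbr_homOfFunctional_apply]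
  simp

/-- **SEP**: a separating homomorphism to the dual numbers. -/
theorem cbr_exists_sepHom [IsLocalHom (algebraMap 𝒪 A)]
    (hres : Function.Surjective (residue A ∘ algebraMap 𝒪 A)) {x : A}
    (hxQ : x ∉ cbr_relSq 𝒪 A) (hx : x ∈ maximalIdeal A) :
    letI := dualNumberAlgebra 𝒪
    ∃ h : A →ₐ[𝒪] DualNumber (ResidueField 𝒪), h x ≠ 0 := by
  letI := dualNumberAlgebra 𝒪
  obtain ⟨lam, h1, h2, h3, h4⟩ := cbr_exists_functional hxQ hx
  refine ⟨cbr_homOfFunctional hres lam h1 h2 h3, fun h0 => h4 ?_⟩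
  have := congrArg TrivSqZeroExt.snd h0
  simpa [cbr_homOfFunctional] using this

end SepHom

end

end Fermat.Agent.S53
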