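import Mathlib
import Fermat.Prelude.Def_GaloisRep_DeformationCondition
import Fermat.Agent.S53.SliceProps
import Fermat.Agent.S53.SliceTangent
import Fermat.Agent.S53.GoodIdeals.CardBound
import Fermat.Agent.S53.GoodIdeals.SepHom

/-!
# S53, block M3 (counting): the uniform cardinality bound for good quotients

Every Artinian test algebra `A` with `𝔪_A ^ (n+1) = 0` receiving a surjective good point
`Lam 𝒪 → A` has cardinality bounded by a number depending only on `n` (and the slice datum).
-/

set_option autoImplicit false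
set_option linter.style.haveILetI false

open IsLocalRing

namespace Fermat.Agent.S53

noncomputable section

section CardBridge

variable {𝒪 : Type} [CommRing 𝒪] [IsLocalRing 𝒪] (S : SliceData 𝒪)
  (𝒟 : ∀ ⦃A : Type⦄ [CommRing A] [IsLocalRing A] [Algebra 𝒪 A], GaloisRepAdic A → Prop)

/-- A finite set of representatives of `Lam 𝒪` modulo the common kernel of all good points with
values in the dual numbers. -/
theorem cbr_exists_reps [Finite (ResidueField 𝒪)] {ρbar : ResidualGaloisRep (ResidueField 𝒪)}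
    (hrb : ρbar.IsEquiv S.rb.toResidualGaloisRep)
    (hfin : GaloisRep.TangentFinite 𝒪 ρbar 𝒟) :
    letI := dualNumberAlgebra 𝒪
    ∃ T : Finset (Lam 𝒪), ∀ l : Lam 𝒪, ∃ t ∈ T,
      ∀ g : Lam 𝒪 →ₐ[𝒪] DualNumber (ResidueField 𝒪), good S 𝒟 g → g l = g t := by
  classical
  letI := dualNumberAlgebra 𝒪
  have h𝒯 := finite_good_dualNumber S 𝒟 hrb hfin
  have hk : Finite (DualNumber (ResidueField 𝒪)) :=
    inferInstanceAs (Finite (ResidueField 𝒪 × ResidueField 𝒪))
  let Ψ : Lam 𝒪 → ({g : Lam 𝒪 →ₐ[𝒪] DualNumber (ResidueField 𝒪) // good S 𝒟 g} →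
      DualNumber (ResidueField 𝒪)) := fun l g => g.1 l
  have hfinR : Finite (Set.range Ψ) := Finite.of_injective (fun y => y.1) Subtype.val_injective
  have : Fintype (Set.range Ψ) := Fintype.ofFinite _
  let sec : Set.range Ψ → Lam 𝒪 := fun y => y.2.choose
  have hsec : ∀ y : Set.range Ψ, Ψ (sec y) = y.1 := fun y => y.2.choose_spec
  refine ⟨Finset.univ.image sec, fun l => ⟨sec ⟨Ψ l, l, rfl⟩,
    Finset.mem_image_of_mem _ (Finset.mem_univ _), fun g hg => ?_⟩⟩
  have := congrFun (hsec ⟨Ψ l, l, rfl⟩) ⟨g, hg⟩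
  exact this.symm

/-- Nilpotent Nakayama in the form needed here. -/
theorem cbr_le_of_le_sup_sq {A : Type} [CommRing A] [IsLocalRing A] [IsNoetherianRing A]
    (I : Ideal A) (h : maximalIdeal A ≤ I ⊔ maximalIdeal A ^ 2) : maximalIdeal A ≤ I := by
  apply Submodule.le_of_le_smul_of_le_jacobson_bot (I := maximalIdeal A)
    ((inferInstance : IsNoetherianRing A).noetherian _)
  · rw [IsLocalRing.jacobson_eq_maximalIdeal ⊥ bot_ne_top]
  · rwa [smul_eq_mul, ← pow_two]

/-- The uniform cardinality bound. -/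
theorem cbr_card_bound (h𝒟 : GaloisRep.IsDeformationCondition 𝒪 𝒟) [Finite (ResidueField 𝒪)]
    (u : Finset 𝒪) (hu : maximalIdeal 𝒪 = Ideal.span (u : Set 𝒪))
    {ρbar : ResidualGaloisRep (ResidueField 𝒪)}
    (hrb : ρbar.IsEquiv S.rb.toResidualGaloisRep)
    (hfin : GaloisRep.TangentFinite 𝒪 ρbar 𝒟) (n : ℕ) :
    ∃ N : ℕ, ∀ (A : Type) [CommRing A] [IsLocalRing A] [Algebra 𝒪 A],
      GaloisRep.IsArtinianTestAlgebra 𝒪 A → maximalIdeal A ^ (n + 1) = ⊥ →
      ∀ f : Lam 𝒪 →ₐ[𝒪] A, Function.Surjective f → good S 𝒟 f →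
        Finite A ∧ Nat.card A ≤ N := by
  classical
  letI := dualNumberAlgebra 𝒪
  obtain ⟨T, hT⟩ := cbr_exists_reps S 𝒟 hrb hfin
  refine ⟨Nat.card (ResidueField 𝒪) ^ (∑ i ∈ Finset.range (n + 1), (T.card + u.card) ^ i), ?_⟩
  intro A _ _ _ hA hn f hf hgood
  have hloc := hA.isLocalHom
  have hart := hA.isArtinian
  have hres := hA.residue_surjective
  have hD := isArtinianTestAlgebra_dualNumber 𝒪
  -- the generating set
  set s : Finset A := ((T.image f).filter fun a => a ∈ maximalIdeal A) ∪
    u.image (algebraMap 𝒪 A) with hs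
  have hcard : s.card ≤ T.card + u.card := by
    refine (Finset.card_union_le _ _).trans (Nat.add_le_add ?_ Finset.card_image_le)
    exact (Finset.card_filter_le _ _).trans Finset.card_image_le
  have hmapu : (maximalIdeal 𝒪).map (algebraMap 𝒪 A) ≤ Ideal.span (s : Set A) := by
    rw [hu, Ideal.map_span]
    apply Ideal.span_mono
    intro a ha
    obtain ⟨c, hc, rfl⟩ := ha
    rw [hs, Finset.coe_union]
    exact Or.inr (Finset.mem_coe.mpr (Finset.mem_image_of_mem _ hc))
  have hspan_le : Ideal.span (s : Set A) ≤ maximalIdeal A := by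
    rw [Ideal.span_le]
    intro a ha
    rw [hs, Finset.coe_union] at ha
    rcases ha with ha | ha
    · exact (Finset.mem_filter.mp (Finset.mem_coe.mp ha)).2
    · obtain ⟨c, hc, rfl⟩ := Finset.mem_image.mp (Finset.mem_coe.mp ha)
      have hcm : c ∈ maximalIdeal 𝒪 := by rw [hu]; exact Ideal.subset_span hc
      exact map_nonunit (algebraMap 𝒪 A) c hcm
  have hkey : maximalIdeal A ≤ Ideal.span (s : Set A) ⊔ maximalIdeal A ^ 2 := by
    intro a ha
    obtain ⟨l, rfl⟩ := hf a
    obtain ⟨t, htT, ht⟩ := hT l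
    -- `x = f l - f t` is killed by every point of `A` with values in the dual numbers
    have hx0 : ∀ h : A →ₐ[𝒪] DualNumber (ResidueField 𝒪), h (f l - f t) = 0 := by
      intro h
      have := ht (h.comp f) (good_comp S 𝒟 h𝒟 hA hD h hgood)
      rw [AlgHom.comp_apply, AlgHom.comp_apply] at this
      rw [map_sub, this, sub_self]
    have hxm : f l - f t ∈ maximalIdeal A := by
      rw [← cbr_resToK_eq_zero_iff hres, ← cbr_fst_trivHom, hx0, TrivSqZeroExt.fst_zero]
    have hxQ : f l - f t ∈ cbr_relSq 𝒪 A := by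
      by_contra hcon
      obtain ⟨h, hh⟩ := cbr_exists_sepHom hres hcon hxm
      exact hh (hx0 h)
    have hft : f t ∈ maximalIdeal A := by
      have := (maximalIdeal A).sub_mem ha hxm
      rwa [sub_sub_cancel] at this
    have hfts : f t ∈ Ideal.span (s : Set A) := by
      apply Ideal.subset_span
      rw [hs, Finset.coe_union]
      exact Or.inl (Finset.mem_coe.mpr (Finset.mem_filter.mpr
        ⟨Finset.mem_image_of_mem _ htT, hft⟩))
    have hQle : cbr_relSq 𝒪 A ≤ Ideal.span (s : Set A) ⊔ maximalIdeal A ^ 2 :=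
      sup_le le_sup_right (hmapu.trans le_sup_left)
    have : f l = f t + (f l - f t) := by ring
    rw [this]
    exact Ideal.add_mem _ (Ideal.mem_sup_left hfts) (hQle hxQ)
  have hspan : maximalIdeal A = Ideal.span (s : Set A) :=
    le_antisymm (cbr_le_of_le_sup_sq _ hkey) hspan_le
  have hcardk : Nat.card (ResidueField A) = Nat.card (ResidueField 𝒪) :=
    (Nat.card_eq_of_bijective _ (cbr_residueFieldMap_bijective hres)).symm
  have : Finite (ResidueField A) := by
    apply Nat.finite_of_card_ne_zero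
    rw [hcardk]
    exact Nat.card_pos.ne'
  have := cb_card_le_of_le s hspan hcard n hn
  rwa [hcardk] at this

end CardBridge

end

end Fermat.Agent.S53
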