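import Fermat.Agent.S53.SliceProps
import Fermat.Agent.S53.TowerInput

/-!
# S53, block M3: good ideals of the coordinate ring `Lam 𝒪` (definition)
-/

set_option autoImplicit false

namespace Fermat.Agent.S53

open IsLocalRing GaloisRep

variable {𝒪 : Type} [CommRing 𝒪] [IsLocalRing 𝒪] (S : SliceData 𝒪)
  (𝒟 : ∀ ⦃A : Type⦄ [CommRing A] [IsLocalRing A] [Algebra 𝒪 A], GaloisRepAdic A → Prop)

/-- `J` is a good ideal of level `n`: between `M ^ (n+1)` and `M` (`M` the kernel of the base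
point), of finite index, and the tautological point of `Lam 𝒪 ⧸ J` is good. -/
structure IsGoodIdeal (n : ℕ) (J : Ideal (Lam 𝒪)) : Prop where
  le : J ≤ baseIdeal S
  pow_le : baseIdeal S ^ (n + 1) ≤ J
  finite : Finite (Lam 𝒪 ⧸ J)
  isGood : ∃ _ : IsLocalRing (Lam 𝒪 ⧸ J), good S 𝒟 (Ideal.Quotient.mkₐ 𝒪 J)

variable {S 𝒟}

theorem IsGoodIdeal.isLocalRing {n : ℕ} {J : Ideal (Lam 𝒪)} (h : IsGoodIdeal S 𝒟 n J) :
    IsLocalRing (Lam 𝒪 ⧸ J) := h.isGood.1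

theorem IsGoodIdeal.good_mk {n : ℕ} {J : Ideal (Lam 𝒪)} (h : IsGoodIdeal S 𝒟 n J)
    [IsLocalRing (Lam 𝒪 ⧸ J)] : good S 𝒟 (Ideal.Quotient.mkₐ 𝒪 J) := h.isGood.2

theorem IsGoodIdeal.mono {n m : ℕ} {J : Ideal (Lam 𝒪)} (h : IsGoodIdeal S 𝒟 n J)
    (hnm : n ≤ m) : IsGoodIdeal S 𝒟 m J :=
  ⟨h.le, (Ideal.pow_le_pow_right (Nat.succ_le_succ hnm)).trans h.pow_le, h.finite, h.isGood⟩

end Fermat.Agent.S53
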